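import Fermat.Agent.JE.ToLD

set_option autoImplicit false

/-! Base change of the line datum (block E-c of S25). -/

universe u

open CategoryTheory CategoryTheory.Limits AlgebraicGeometry TopologicalSpace Opposite
open NeronModelInfra AlgebraicGeometry.RelPicard
open scoped TensorProduct

namespace Fermat.Agent.JE

open Fermat.Agent.JPC Fermat.Agent.JKL Fermat.Agent.JCB
open Fermat.Agent.JPb (Gen pb pb_smul pb_add pb_map gen_pb)

noncomputable section

section General

variable {X Y : Scheme.{u}} {M : X.Modules}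

lemma exists_pow_smul_eq {U : X.Opens} (hU : IsAffineOpen U) (hM : LocFree M U) {g : Γ(X, U)}
    {s : Γ(M, U)} (hs : Gen M (X.basicOpen g) (rs M (X.basicOpen_le g) s)) (m : Γ(M, U)) :
    ∃ (K : ℕ) (a : Γ(X, U)), g ^ K • m = a • s := by
  obtain ⟨a, ha⟩ := gen_exists_eq hs le_rfl (rs M (X.basicOpen_le g) m)
  rw [rs_rs] at ha
  obtain ⟨K, y, hy⟩ := exists_eq_pow_mul_of_isAffineOpen X U hU g a
  have hy' : ro (X.basicOpen_le g) y = ro (X.basicOpen_le g) g ^ K * a := hy
  have h0 : rs M (X.basicOpen_le g) (g ^ K • m - y • s) = 0 := by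
    rw [map_sub, rs_smul, rs_smul, ha, hy', map_pow, mul_smul, sub_self]
  obtain ⟨K1, hK1⟩ := pow_smul_eq_zero hU hM _ _ h0
  refine ⟨K1 + K, g ^ K1 * y, ?_⟩
  rw [smul_sub, sub_eq_zero, smul_smul, smul_smul, ← pow_add] at hK1
  exact hK1

lemma mem_of_cover {U : X.Opens} (hU : IsAffineOpen U) (hM : LocFree M U) {n : ℕ}
    {g : Fin n → Γ(X, U)} {s : Fin n → Γ(M, U)} (hspan : Ideal.span (Set.range g) = ⊤)
    (hs : ∀ i, Gen M (X.basicOpen (g i)) (rs M (X.basicOpen_le (g i)) (s i)))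
    (N : Submodule Γ(X, U) Γ(M, U)) (hN : ∀ i, s i ∈ N) (m : Γ(M, U)) : m ∈ N := by
  choose K a hK using fun i => exists_pow_smul_eq hU hM (hs i) m
  have hspan2 : Ideal.span (Set.range fun i => g i ^ K i) = ⊤ := by
    rw [← Ideal.radical_eq_top, eq_top_iff, ← hspan, Ideal.span_le]
    rintro _ ⟨i, rfl⟩
    exact ⟨K i, Ideal.subset_span ⟨i, rfl⟩⟩
  obtain ⟨c, hc⟩ := (Ideal.mem_span_range_iff_exists_fun).1
    ((Ideal.eq_top_iff_one _).1 hspan2)
  have : m = ∑ i, c i • (a i • s i) := by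
    rw [← one_smul Γ(X, U) m, ← hc, Finset.sum_smul]
    refine Finset.sum_congr rfl fun i _ => ?_
    rw [mul_smul, hK i]
  rw [this]
  exact N.sum_mem fun i _ => N.smul_mem _ (N.smul_mem _ (hN i))

lemma LocFree.pullback (F : Y ⟶ X) {U : X.Opens} (hM : LocFree M U) :
    LocFree ((Scheme.Modules.pullback F).obj M) (F ⁻¹ᵁ U) := by
  intro y hy
  obtain ⟨V, hV, e, he⟩ := hM (F y) hy
  exact ⟨F ⁻¹ᵁ V, hV, _, gen_pb F he⟩

lemma LocFree.pullbackTop (F : Y ⟶ X) (hM : LocFree M ⊤) :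
    LocFree ((Scheme.Modules.pullback F).obj M) ⊤ := hM.pullback F

/-- pull-back of sections to a smaller open -/
def pbL (F : Y ⟶ X) (M : X.Modules) {U : X.Opens} {U' : Y.Opens} (e : U' ≤ F ⁻¹ᵁ U) :
    Γ(M, U) →+ Γ((Scheme.Modules.pullback F).obj M, U') :=
  (rs _ e).comp (pb F M U).hom

lemma pbL_apply (F : Y ⟶ X) {U : X.Opens} {U' : Y.Opens} (e : U' ≤ F ⁻¹ᵁ U) (s : Γ(M, U)) :
    pbL F M e s = rs _ e (pb F M U s) := rfl

lemma pbL_smul (F : Y ⟶ X) {U : X.Opens} {U' : Y.Opens} (e : U' ≤ F ⁻¹ᵁ U) (a : Γ(X, U))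
    (s : Γ(M, U)) : pbL F M e (a • s) = F.appLE U U' e a • pbL F M e s := by
  rw [pbL_apply, pb_smul, rs_smul]
  rfl

lemma pb_rs (F : Y ⟶ X) {U V : X.Opens} (h : V ≤ U) (s : Γ(M, U)) :
    pb F M V (rs M h s) = rs _ (show F ⁻¹ᵁ V ≤ F ⁻¹ᵁ U from fun _ hy => h hy) (pb F M U s) :=
  pb_map F M (homOfLE h) s

lemma pbL_rs (F : Y ⟶ X) {U V : X.Opens} {U' V' : Y.Opens} (e : U' ≤ F ⁻¹ᵁ U)
    (e' : V' ≤ F ⁻¹ᵁ V) (h : V ≤ U) (h' : V' ≤ U') (s : Γ(M, U)) :
    pbL F M e' (rs M h s) = rs _ h' (pbL F M e s) := by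
  rw [pbL_apply, pbL_apply, pb_rs, rs_rs, rs_rs]

/-- sections over `U'` are generated by pulled back sections -/
lemma mem_of_pbL (F : Y ⟶ X) {U : X.Opens} {U' : Y.Opens} (hU : IsAffineOpen U)
    (hU' : IsAffineOpen U') (e : U' ≤ F ⁻¹ᵁ U) (hM : LocFree M U)
    (N : Submodule Γ(Y, U') Γ((Scheme.Modules.pullback F).obj M, U'))
    (hN : ∀ s : Γ(M, U), pbL F M e s ∈ N)
    (m : Γ((Scheme.Modules.pullback F).obj M, U')) : m ∈ N := by
  obtain ⟨n, g, s, hcov, hspan, hs⟩ := exists_gen_cover hU hM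
  have hM' : LocFree ((Scheme.Modules.pullback F).obj M) U' := (hM.pullback F).mono e
  refine mem_of_cover hU' hM' (g := fun i => F.appLE U U' e (g i))
    (s := fun i => pbL F M e (s i)) ?_ ?_ N (fun i => hN _) m
  · have h1 : Set.range (fun i => F.appLE U U' e (g i)) = (F.appLE U U' e).hom '' Set.range g := by
      rw [← Set.range_comp]; rfl
    rw [h1, ← Ideal.map_span, hspan, Ideal.map_top]
  · intro i
    have hle : Y.basicOpen (F.appLE U U' e (g i)) ≤ F ⁻¹ᵁ X.basicOpen (g i) := by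
      have h2 : F.appLE U U' e (g i) = ro e (F.app U (g i)) := rfl
      rw [h2, basicOpen_ro, Scheme.preimage_basicOpen]
      exact inf_le_right
    have h3 := gen_rs (gen_pb F (hs i)) hle
    rw [pb_rs, rs_rs] at h3
    rw [pbL_apply, rs_rs]
    exact h3

end General

section Main

variable {k : Type u} [Field k] {C : Scheme.{u}} {c : C ⟶ Spec (CommRingCat.of k)}
  {ε : SchemeHomOver (𝟙 (Spec (CommRingCat.of k))) c} {X : TwoChart k} (ch : Chart c ε X)
  {B : Type u} [CommRing B] [Algebra k B] {Y : Scheme.{u}} {fst : Y ⟶ C}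
  {snd : Y ⟶ Spec (CommRingCat.of B)}
  (H : IsPullback fst snd c (Spec.map (CommRingCat.ofHom (algebraMap k B))))
  {B' : Type u} [CommRing B'] [Algebra k B'] [Algebra B B'] [IsScalarTower k B B']
  {Y' : Scheme.{u}} {fst' : Y' ⟶ C} {snd' : Y' ⟶ Spec (CommRingCat.of B')}
  (H' : IsPullback fst' snd' c (Spec.map (CommRingCat.ofHom (algebraMap k B'))))
  (g : Y' ⟶ Y) (h1 : g ≫ fst = fst')
  (h2 : g ≫ snd = snd' ≫ Spec.map (CommRingCat.ofHom (algebraMap B B')))

include h1 in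
omit H H' in
lemma preimage_le (W : C.Opens) : fst' ⁻¹ᵁ W ≤ g ⁻¹ᵁ fst ⁻¹ᵁ W := by
  subst h1
  rw [Scheme.Hom.comp_preimage]

include h2 in
lemma muA_bc (s : B ⊗[k] X.A) :
    g.appLE _ _ (preimage_le g h1 (ch.U ⊓ ch.V)) (muA ch H s) = muA ch H' (bcR X B B' s) :=
  mu_base H.w (ch.U ⊓ ch.V) ch.s ch.s_k H'.w (IsScalarTower.toAlgHom k B B') g h1 h2 _ s

variable {𝓜 : Y.Modules}

include h2 in
/-- (E-c) base change -/
theorem toLD_baseChange (hM : LocFree 𝓜 ⊤)
    (hM' : LocFree ((Scheme.Modules.pullback g).obj 𝓜) ⊤) :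
    ∃ e : ((toLD ch H 𝓜 hM).baseChange B').Iso
        (toLD ch H' ((Scheme.Modules.pullback g).obj 𝓜) hM'),
      ∀ m : Γ(𝓜, fst ⁻¹ᵁ (ch.U ⊓ ch.V)),
        e.e (show ((toLD ch H 𝓜 hM).baseChange B').M from 1 ⊗ₜ m) =
          pbL g 𝓜 (preimage_le g h1 (ch.U ⊓ ch.V)) m := by
  set L := toLD ch H 𝓜 hM with hL
  set L' := toLD ch H' ((Scheme.Modules.pullback g).obj 𝓜) hM' with hL'
  let φ : L.M →+ L'.M := pbL g 𝓜 (preimage_le g h1 (ch.U ⊓ ch.V))
  have hφ : ∀ (s : B ⊗[k] X.A) (m : L.M), φ (s • m) = bcR X B B' s • φ m := by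
    intro s m
    have e1 : φ (s • m) = pbL g 𝓜 (preimage_le g h1 (ch.U ⊓ ch.V))
        (muA ch H s • (show Γ(𝓜, fst ⁻¹ᵁ (ch.U ⊓ ch.V)) from m)) :=
      congrArg φ (toLD_smul ch H hM s m)
    refine e1.trans ((pbL_smul g _ _ _).trans ?_)
    rw [muA_bc ch H H' g h1 h2]
    exact (toLD_smul ch H' hM' _ _).symm
  have hB : ∀ (b : B) (m : L.M), φ (b • m) = algebraMap B B' b • φ m := by
    intro b m
    have h3 := hφ (b ⊗ₜ 1) m
    rwa [PreLD.tmul_smul, one_smul, bcR_tmul, PreLD.tmul_smul, one_smul] at h3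
  have hA : ∀ (a : X.A) (m : L.M), φ (a • m) = a • φ m := by
    intro a m
    have h3 := hφ (1 ⊗ₜ a) m
    rwa [PreLD.tmul_smul, one_smul, bcR_tmul, PreLD.tmul_smul, map_one, one_smul] at h3
  -- the two charts
  have hs0 : Submodule.span B' (φ '' L.M0) = L'.M0 := by
    apply le_antisymm
    · rw [Submodule.span_le]
      rintro _ ⟨_, ⟨t, rfl⟩, rfl⟩
      refine ⟨pbL g 𝓜 (preimage_le g h1 ch.U) t, ?_⟩
      exact (pbL_rs g _ _ _ _ t).symm
    · have hst : ∀ (a : X.A), a ∈ X.A0 → ∀ x ∈ Submodule.span B' (φ '' L.M0),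
          a • x ∈ Submodule.span B' (φ '' L.M0) := by
        intro a ha x hx
        refine Submodule.span_induction ?_ ?_ ?_ ?_ hx
        · rintro _ ⟨m, hm, rfl⟩
          rw [← hA]
          exact Submodule.subset_span ⟨_, L.smul0 a ha m hm, rfl⟩
        · rw [smul_zero]; exact Submodule.zero_mem _
        · intro x y _ _ hx hy
          rw [smul_add]; exact Submodule.add_mem _ hx hy
        · intro b x _ hx
          rw [← smul_comm]; exact Submodule.smul_mem _ _ hx
      have hst2 : ∀ (z : B' ⊗[k] X.A0), ∀ x ∈ Submodule.span B' (φ '' L.M0),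
          z • x ∈ Submodule.span B' (φ '' L.M0) := by
        intro z x hx
        induction z with
        | zero => rw [zero_smul (B' ⊗[k] X.A0) x]; exact Submodule.zero_mem _
        | tmul b a =>
          rw [PreLD.tmul_smul0]
          exact Submodule.smul_mem _ _ (hst a a.2 x hx)
        | add z w hz hw => rw [add_smul]; exact Submodule.add_mem _ hz hw
      let r : Γ((Scheme.Modules.pullback g).obj 𝓜, fst' ⁻¹ᵁ ch.U) →+ L'.M :=
        rs _ (leU ch fst')
      have hr : ∀ (z : B' ⊗[k] X.A0) t, r (mu0 ch H' z • t) = z • r t := by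
        intro z t
        rw [← ι0_smul L' z]
        refine Eq.trans ?_ (toLD_smul ch H' hM' (ι0 X B' z) _).symm
        refine (rs_smul (leU ch fst') _ _).trans ?_
        rw [ro_mu0]
        rfl
      let N : Submodule Γ(Y', fst' ⁻¹ᵁ ch.U)
          Γ((Scheme.Modules.pullback g).obj 𝓜, fst' ⁻¹ᵁ ch.U) :=
        { carrier := {t | r t ∈ Submodule.span B' (φ '' L.M0)}
          add_mem' := fun {a b} ha hb => by
            rw [Set.mem_ofPred_eq, map_add]
            exact Submodule.add_mem _ ha hb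
          zero_mem' := by
            rw [Set.mem_ofPred_eq, map_zero]
            exact Submodule.zero_mem _
          smul_mem' := fun a t ht => by
            obtain ⟨z, rfl⟩ := (mu0_bij ch H').2 a
            rw [Set.mem_ofPred_eq, hr]
            exact hst2 z _ ht }
      rintro _ ⟨t, rfl⟩
      refine mem_of_pbL g (aff0 ch H) (aff0 ch H') (preimage_le g h1 ch.U) (hM.mono le_top) N
        (fun s => ?_) t
      change r (pbL g 𝓜 (preimage_le g h1 ch.U) s) ∈ Submodule.span B' (φ '' L.M0)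
      refine Submodule.subset_span ⟨rs 𝓜 (leU ch fst) s, ⟨s, rfl⟩, ?_⟩
      exact pbL_rs g _ _ _ _ s
  have hs1 : Submodule.span B' (φ '' L.M1) = L'.M1 := by
    apply le_antisymm
    · rw [Submodule.span_le]
      rintro _ ⟨_, ⟨t, rfl⟩, rfl⟩
      refine ⟨pbL g 𝓜 (preimage_le g h1 ch.V) t, ?_⟩
      exact (pbL_rs g _ _ _ _ t).symm
    · have hst : ∀ (a : X.A), a ∈ X.A1 → ∀ x ∈ Submodule.span B' (φ '' L.M1),
          a • x ∈ Submodule.span B' (φ '' L.M1) := by
        intro a ha x hx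
        refine Submodule.span_induction ?_ ?_ ?_ ?_ hx
        · rintro _ ⟨m, hm, rfl⟩
          rw [← hA]
          exact Submodule.subset_span ⟨_, L.smul1 a ha m hm, rfl⟩
        · rw [smul_zero]; exact Submodule.zero_mem _
        · intro x y _ _ hx hy
          rw [smul_add]; exact Submodule.add_mem _ hx hy
        · intro b x _ hx
          rw [← smul_comm]; exact Submodule.smul_mem _ _ hx
      have hst2 : ∀ (z : B' ⊗[k] X.A1), ∀ x ∈ Submodule.span B' (φ '' L.M1),
          z • x ∈ Submodule.span B' (φ '' L.M1) := by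
        intro z x hx
        induction z with
        | zero => rw [zero_smul (B' ⊗[k] X.A1) x]; exact Submodule.zero_mem _
        | tmul b a =>
          rw [PreLD.tmul_smul1]
          exact Submodule.smul_mem _ _ (hst a a.2 x hx)
        | add z w hz hw => rw [add_smul]; exact Submodule.add_mem _ hz hw
      let r : Γ((Scheme.Modules.pullback g).obj 𝓜, fst' ⁻¹ᵁ ch.V) →+ L'.M :=
        rs _ (leV ch fst')
      have hr : ∀ (z : B' ⊗[k] X.A1) t, r (mu1 ch H' z • t) = z • r t := by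
        intro z t
        rw [← ι1_smul L' z]
        refine Eq.trans ?_ (toLD_smul ch H' hM' (ι1 X B' z) _).symm
        refine (rs_smul (leV ch fst') _ _).trans ?_
        rw [ro_mu1]
        rfl
      let N : Submodule Γ(Y', fst' ⁻¹ᵁ ch.V)
          Γ((Scheme.Modules.pullback g).obj 𝓜, fst' ⁻¹ᵁ ch.V) :=
        { carrier := {t | r t ∈ Submodule.span B' (φ '' L.M1)}
          add_mem' := fun {a b} ha hb => by
            rw [Set.mem_ofPred_eq, map_add]
            exact Submodule.add_mem _ ha hb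
          zero_mem' := by
            rw [Set.mem_ofPred_eq, map_zero]
            exact Submodule.zero_mem _
          smul_mem' := fun a t ht => by
            obtain ⟨z, rfl⟩ := (mu1_bij ch H').2 a
            rw [Set.mem_ofPred_eq, hr]
            exact hst2 z _ ht }
      rintro _ ⟨t, rfl⟩
      refine mem_of_pbL g (aff1 ch H) (aff1 ch H') (preimage_le g h1 ch.V) (hM.mono le_top) N
        (fun s => ?_) t
      change r (pbL g 𝓜 (preimage_le g h1 ch.V) s) ∈ Submodule.span B' (φ '' L.M1)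
      refine Submodule.subset_span ⟨rs 𝓜 (leV ch fst) s, ⟨s, rfl⟩, ?_⟩
      exact pbL_rs g _ _ _ _ s
  obtain ⟨e, he⟩ := exists_iso_of_span L (toLD_isLine ch H hM) L' (toLD_isLine ch H' hM') φ hB hA
    hs0 hs1
  exact ⟨e, he⟩

end Main

end

end Fermat.Agent.JE
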