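import Fermat.Agent.JKL.Loc

set_option autoImplicit false

/-! Recognition of a base change of line data (block E of S25). -/

universe u

open TensorProduct

namespace Fermat.Agent.JE

open Fermat.Agent.JPC Fermat.Agent.JKL

noncomputable section

variable {k : Type u} [Field k] {X : TwoChart k} {B : Type u} [CommRing B] [Algebra k B]
  {B' : Type u} [CommRing B'] [Algebra k B'] [Algebra B B'] [IsScalarTower k B B']

/-- `B ⊗ A → B' ⊗ A` -/
def bcR (X : TwoChart k) (B B' : Type u) [CommRing B] [Algebra k B] [CommRing B'] [Algebra k B']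
    [Algebra B B'] [IsScalarTower k B B'] : B ⊗[k] X.A →ₐ[k] B' ⊗[k] X.A :=
  Algebra.TensorProduct.map (IsScalarTower.toAlgHom k B B') (AlgHom.id k X.A)

@[simp] theorem bcR_tmul (b : B) (a : X.A) :
    bcR X B B' (b ⊗ₜ a) = algebraMap B B' b ⊗ₜ a := rfl

/-- algebra structure -/
@[reducible] def algBC (X : TwoChart k) (B B' : Type u) [CommRing B] [Algebra k B] [CommRing B']
    [Algebra k B'] [Algebra B B'] [IsScalarTower k B B'] : Algebra (B ⊗[k] X.A) (B' ⊗[k] X.A) :=
  (bcR X B B').toRingHom.toAlgebra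

theorem exists_iso_of_span (L : PreLD X B) (hL : L.IsLine) (L' : PreLD X B') (hL' : L'.IsLine)
    (φ : L.M →+ L'.M) (hB : ∀ (b : B) (m : L.M), φ (b • m) = algebraMap B B' b • φ m)
    (hA : ∀ (a : X.A) (m : L.M), φ (a • m) = a • φ m)
    (h0 : Submodule.span B' (φ '' L.M0) = L'.M0) (h1 : Submodule.span B' (φ '' L.M1) = L'.M1) :
    ∃ e : (L.baseChange B').Iso L', ∀ m : L.M, e.e (show (L.baseChange B').M from 1 ⊗ₜ m) = φ m := by
  let _ := algBC X B B'
  have halg : ∀ r : B ⊗[k] X.A, algebraMap (B ⊗[k] X.A) (B' ⊗[k] X.A) r = bcR X B B' r :=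
    fun _ => rfl
  have t1 : IsScalarTower B (B ⊗[k] X.A) (B' ⊗[k] X.A) := by
    refine IsScalarTower.of_algebraMap_eq fun b => ?_
    rw [halg]
    show algebraMap B (B' ⊗[k] X.A) b = bcR X B B' (b ⊗ₜ 1)
    rw [bcR_tmul, IsScalarTower.algebraMap_apply B B' (B' ⊗[k] X.A)]
    rfl
  have hpo : Algebra.IsPushout B B' (B ⊗[k] X.A) (B' ⊗[k] X.A) :=
    Algebra.IsPushout.tensorProduct_tensorProduct k X.A B B' (by
      ext a
      simp [halg])
  have := isLine_inv L hL
  have := isLine_inv L' hL'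
  let modR : Module (B ⊗[k] X.A) L'.M := Module.compHom _ (bcR X B B').toRingHom
  have hmodR : ∀ (r : B ⊗[k] X.A) (m : L'.M), r • m = bcR X B B' r • m := fun _ _ => rfl
  have tR : IsScalarTower (B ⊗[k] X.A) (B' ⊗[k] X.A) L'.M :=
    ⟨fun r s m => by rw [hmodR, ← mul_smul]; rfl⟩
  have hφR : ∀ (r : B ⊗[k] X.A) (m : L.M), φ (r • m) = r • φ m := by
    intro r m
    induction r with
    | zero => rw [zero_smul (B ⊗[k] X.A) m, map_zero, zero_smul (B ⊗[k] X.A) (φ m)]
    | tmul b a =>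
      rw [hmodR, bcR_tmul, PreLD.tmul_smul, PreLD.tmul_smul, hB, hA]
    | add x y hx hy => rw [add_smul, map_add, hx, hy, add_smul]
  let φR : L.M →ₗ[B ⊗[k] X.A] L'.M :=
    { toFun := φ
      map_add' := map_add φ
      map_smul' := hφR }
  let ψ : (B' ⊗[k] X.A) ⊗[B ⊗[k] X.A] L.M →ₗ[B' ⊗[k] X.A] L'.M :=
    φR.liftBaseChange (B' ⊗[k] X.A)
  have hψ : ∀ (s : B' ⊗[k] X.A) (m : L.M), ψ (s ⊗ₜ m) = s • φ m := fun _ _ => rfl
  have hsurj : Function.Surjective ψ := by
    intro m'
    obtain ⟨n, hn⟩ := L'.ex0 m'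
    have hr : ∀ z ∈ L'.M0, z ∈ LinearMap.range ψ := by
      intro z hz
      rw [← h0] at hz
      refine Submodule.span_induction ?_ ?_ ?_ ?_ hz
      · rintro _ ⟨m, _, rfl⟩
        exact ⟨1 ⊗ₜ m, by rw [hψ, one_smul]⟩
      · exact Submodule.zero_mem _
      · intro x y _ _ hx hy
        exact Submodule.add_mem _ hx hy
      · intro b x _ hx
        have : b • x = (b ⊗ₜ[k] (1 : X.A)) • x := by
          rw [PreLD.tmul_smul, one_smul]
        rw [this]
        exact Submodule.smul_mem _ _ hx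
    have h2 := (LinearMap.range ψ).smul_mem ((1 : B') ⊗ₜ[k] (((X.t⁻¹ : X.Aˣ) : X.A) ^ n))
      (hr _ hn)
    rw [PreLD.tmul_smul, one_smul, ← mul_smul, ← mul_pow, Units.inv_mul, one_pow, one_smul] at h2
    exact h2
  have hbij : Function.Bijective ψ := Module.Invertible.bijective_of_surjective hsurj
  let e' : (B' ⊗[B] L.M) ≃ₗ[B'] L'.M :=
    (Algebra.IsPushout.cancelBaseChange B B' (B ⊗[k] X.A) (B' ⊗[k] X.A) L.M).symm ≪≫ₗ
      (LinearEquiv.ofBijective ψ hbij).restrictScalars B'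
  have he' : ∀ (b : B') (m : L.M), e' (b ⊗ₜ m) = b • φ m := by
    intro b m
    show ψ ((Algebra.IsPushout.cancelBaseChange B B' (B ⊗[k] X.A) (B' ⊗[k] X.A) L.M).symm
      (b ⊗ₜ m)) = _
    rw [Algebra.IsPushout.cancelBaseChange_symm_tmul, hψ]
    show (b ⊗ₜ[k] (1 : X.A)) • φ m = b • φ m
    rw [PreLD.tmul_smul, one_smul]
  have hspan : ∀ (N : Submodule B L.M), (N.baseChange B').map (e' : (B' ⊗[B] L.M) →ₗ[B'] L'.M) =
      Submodule.span B' (φ '' N) := by
    intro N
    rw [Submodule.baseChange_eq_span, Submodule.map_span]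
    congr 1
    ext z
    constructor
    · rintro ⟨_, ⟨m, hm, rfl⟩, rfl⟩
      refine ⟨m, hm, ?_⟩
      show φ m = e' (1 ⊗ₜ m)
      rw [he', one_smul]
    · rintro ⟨m, hm, rfl⟩
      refine ⟨_, ⟨m, hm, rfl⟩, ?_⟩
      show e' (1 ⊗ₜ m) = φ m
      rw [he', one_smul]
  refine ⟨{ e := e', smul := ?_, map0 := ?_, map1 := ?_ }, fun m => ?_⟩
  · intro a z
    induction z using TensorProduct.induction_on with
    | zero =>
      have h1 : a • (0 : (L.baseChange B').M) = 0 := smul_zero a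
      have h2 : e' (0 : B' ⊗[B] L.M) = 0 := map_zero e'
      exact (congrArg (fun z : B' ⊗[B] L.M => e' z) h1).trans
        (h2.trans ((congrArg (fun z => a • z) h2).trans (smul_zero a)).symm)
    | tmul b m =>
      rw [PreLD.baseChange_smul]
      show e' (b ⊗ₜ (a • m)) = a • e' (b ⊗ₜ m)
      rw [he', he', hA, smul_comm]
    | add x y hx hy =>
      have h1 : a • (show (L.baseChange B').M from x + y) =
        a • (show (L.baseChange B').M from x) + a • (show (L.baseChange B').M from y) :=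
        smul_add a _ _
      have h2 : e' (x + y) = e' x + e' y := map_add e' x y
      have h3 := congrArg (fun z : B' ⊗[B] L.M => e' z) h1
      refine h3.trans ?_
      refine (map_add e' _ _).trans ?_
      refine (congrArg₂ (· + ·) hx hy).trans ?_
      show a • e' x + a • e' y = a • e' (x + y)
      rw [h2, smul_add]
  · rw [PreLD.baseChange_M0]
    exact (hspan L.M0).trans h0
  · rw [PreLD.baseChange_M1]
    exact (hspan L.M1).trans h1
  · show e' (1 ⊗ₜ m) = φ m
    rw [he', one_smul]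

end

end Fermat.Agent.JE
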