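import Fermat.Agent.JE.Inv
import Fermat.Agent.JE.Alg
import Fermat.Agent.JCB.Chart

set_option autoImplicit false

/-! Line data of a locally free module of rank one on `C_B` (block E of S25). -/

universe u

open CategoryTheory CategoryTheory.Limits AlgebraicGeometry TopologicalSpace Opposite
open NeronModelInfra AlgebraicGeometry.RelPicard
open scoped TensorProduct

namespace Fermat.Agent.JE

open Fermat.Agent.JPC Fermat.Agent.JKL Fermat.Agent.JCB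
open Fermat.Agent.JPb (Gen)

noncomputable section

section Basic

variable {X : Scheme.{u}} {M : X.Modules}

lemma exists_pow_smul' {U W : X.Opens} (hU : IsAffineOpen U) (hM : LocFree M U) (f : Γ(X, U))
    (hW : W = X.basicOpen f) (h : W ≤ U) (s : Γ(M, W)) :
    ∃ (n : ℕ) (t : Γ(M, U)), rs M h t = ro h f ^ n • s := by
  subst hW
  exact exists_pow_smul hU hM f s

lemma pow_smul_eq_zero' {U W : X.Opens} (hU : IsAffineOpen U) (hM : LocFree M U) (f : Γ(X, U))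
    (hW : W = X.basicOpen f) (h : W ≤ U) (t : Γ(M, U)) (ht : rs M h t = 0) :
    ∃ n : ℕ, f ^ n • t = 0 := by
  subst hW
  exact pow_smul_eq_zero hU hM f t ht

/-- regular elements act regularly on invertible modules -/
lemma smul_reg {R N : Type*} [CommRing R] [AddCommGroup N] [Module R N] [Module.Invertible R N]
    {f : R} (hf : ∀ r : R, f * r = 0 → r = 0) {m : N} (hm : f • m = 0) : m = 0 := by
  have h : IsSMulRegular R f := by
    intro a b hab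
    have : f * (a - b) = 0 := by
      have h1 : f * a = f * b := hab
      rw [mul_sub, h1, sub_self]
    exact sub_eq_zero.1 (hf _ this)
  have h2 : IsSMulRegular (R ⊗[R] N) f := by
    have hinj : Function.Injective ((LinearMap.lsmul R R f).rTensor N) :=
      Module.Flat.rTensor_preserves_injective_linearMap _ h
    intro a b hab
    apply hinj
    have key : ∀ z : R ⊗[R] N, (LinearMap.lsmul R R f).rTensor N z = f • z := by
      intro z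
      induction z using TensorProduct.induction_on with
      | zero => simp
      | tmul r n => rfl
      | add x y hx hy => rw [map_add, smul_add, hx, hy]
    rw [key, key]
    exact hab
  have h3 : f • ((1 : R) ⊗ₜ[R] m) = f • (0 : R ⊗[R] N) := by
    rw [smul_zero, ← TensorProduct.tmul_smul, hm, TensorProduct.tmul_zero]
  have h4 := congrArg (TensorProduct.lid R N) (h2 h3)
  simpa using h4

/-- invertibility transported along an isomorphism of rings -/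
lemma invertible_of_ringEquiv {R R' N : Type*} [CommRing R] [CommRing R'] [AddCommGroup N]
    [Module R' N] [Module.Invertible R' N] [Module R N] (e : R ≃+* R')
    (h : ∀ (r : R) (n : N), r • n = e r • n) : Module.Invertible R N := by
  let _ : Algebra R' R := e.symm.toRingHom.toAlgebra
  have halg : ∀ r : R', algebraMap R' R r = e.symm r := fun _ => rfl
  have : IsScalarTower R' R N := ⟨fun r s n => by
    rw [Algebra.smul_def, halg, h, map_mul, RingEquiv.apply_symm_apply, mul_smul, ← h]⟩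
  have : IsLocalization (⊥ : Submonoid R') R := by
    refine ⟨⟨?_, ?_, ?_⟩⟩
    · rintro ⟨y, hy⟩
      obtain rfl := (Submonoid.mem_bot).1 hy
      simp
    · intro z
      exact ⟨⟨e z, 1⟩, by simp [halg]⟩
    · intro x y hxy
      rw [halg, halg] at hxy
      exact ⟨1, by rw [e.symm.injective hxy]⟩
  have := isLocalizedModule_id (⊥ : Submonoid R') N R
  exact Module.Invertible.of_isLocalization (⊥ : Submonoid R') (LinearMap.id : N →ₗ[R'] N)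

end Basic

section Main

variable {k : Type u} [Field k] {C : Scheme.{u}} {c : C ⟶ Spec (CommRingCat.of k)}
  {ε : SchemeHomOver (𝟙 (Spec (CommRingCat.of k))) c} {X : TwoChart k} (ch : Chart c ε X)
  {B : Type u} [CommRing B] [Algebra k B] {Y : Scheme.{u}} {fst : Y ⟶ C}
  {snd : Y ⟶ Spec (CommRingCat.of B)}
  (H : IsPullback fst snd c (Spec.map (CommRingCat.ofHom (algebraMap k B))))

/-- `B ⊗ A → Γ(C_B, U_B ∩ V_B)` -/
def muA : B ⊗[k] X.A →+* Γ(Y, fst ⁻¹ᵁ (ch.U ⊓ ch.V)) := mu H.w (ch.U ⊓ ch.V) ch.s ch.s_k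

/-- `B ⊗ A0 → Γ(C_B, U_B)` -/
def mu0 : B ⊗[k] X.A0 →+* Γ(Y, fst ⁻¹ᵁ ch.U) := mu H.w ch.U ch.s0 ch.s0_k

/-- `B ⊗ A1 → Γ(C_B, V_B)` -/
def mu1 : B ⊗[k] X.A1 →+* Γ(Y, fst ⁻¹ᵁ ch.V) := mu H.w ch.V ch.s1 ch.s1_k

lemma hUVaff : IsAffineOpen (ch.U ⊓ ch.V) := by
  rw [ch.basic0]; exact ch.hU.basicOpen _

lemma muA_bij : Function.Bijective (muA ch H) :=
  mu_bijective _ _ _ H (hUVaff ch) ch.s_bij

lemma mu0_bij : Function.Bijective (mu0 ch H) := mu_bijective _ _ _ H ch.hU ch.s0_bij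

lemma mu1_bij : Function.Bijective (mu1 ch H) := mu_bijective _ _ _ H ch.hV ch.s1_bij

include H in
lemma affA : IsAffineOpen (fst ⁻¹ᵁ (ch.U ⊓ ch.V)) := isAffineOpen_preimage _ H (hUVaff ch)

include H in
lemma aff0 : IsAffineOpen (fst ⁻¹ᵁ ch.U) := isAffineOpen_preimage _ H ch.hU

include H in
lemma aff1 : IsAffineOpen (fst ⁻¹ᵁ ch.V) := isAffineOpen_preimage _ H ch.hV

omit H in
variable (fst) in
lemma leU : fst ⁻¹ᵁ (ch.U ⊓ ch.V) ≤ fst ⁻¹ᵁ ch.U := fst.preimage_mono inf_le_left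

omit H in
variable (fst) in
lemma leV : fst ⁻¹ᵁ (ch.U ⊓ ch.V) ≤ fst ⁻¹ᵁ ch.V := fst.preimage_mono inf_le_right

lemma ro_mu0 (s : B ⊗[k] X.A0) : ro (leU ch fst) (mu0 ch H s) = muA ch H (ι0 X B s) := by
  have h := mu_res H.w ch.U ch.s0 ch.s0_k ch.s ch.s_k (homOfLE inf_le_left) X.A0.val
    (fun a => ch.s0_res a) s
  refine h.trans ?_
  congr 1

lemma ro_mu1 (s : B ⊗[k] X.A1) : ro (leV ch fst) (mu1 ch H s) = muA ch H (ι1 X B s) := by
  have h := mu_res H.w ch.V ch.s1 ch.s1_k ch.s ch.s_k (homOfLE inf_le_right) X.A1.val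
    (fun a => ch.s1_res a) s
  refine h.trans ?_
  congr 1

lemma basic0' : fst ⁻¹ᵁ (ch.U ⊓ ch.V) = Y.basicOpen (mu0 ch H (t0 X B)) := by
  have h : mu0 ch H (t0 X B) = fst.app ch.U (ch.s0 ⟨X.t, X.t_mem⟩) := by
    show mu H.w ch.U ch.s0 ch.s0_k (1 ⊗ₜ _) = _
    rw [mu_tmul, map_one, one_mul]
  rw [h, ← Scheme.preimage_basicOpen, ← ch.basic0]

lemma basic1' : fst ⁻¹ᵁ (ch.U ⊓ ch.V) = Y.basicOpen (mu1 ch H (t1 X B)) := by
  have h : mu1 ch H (t1 X B) = fst.app ch.V (ch.s1 ⟨((X.t⁻¹ : X.Aˣ) : X.A), X.tinv_mem⟩) := by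
    show mu H.w ch.V ch.s1 ch.s1_k (1 ⊗ₜ _) = _
    rw [mu_tmul, map_one, one_mul]
  rw [h, ← Scheme.preimage_basicOpen, ← ch.basic1]

variable {𝓜 : Y.Modules}

lemma t0_reg (r : B ⊗[k] X.A0) (h : t0 X B * r = 0) : r = 0 := by
  apply ι0_injective X B
  have h1 := congrArg (ι0 X B) h
  rw [map_mul, map_zero] at h1
  rw [map_zero]
  exact (isUnit_ι0_t0 X B).mul_right_eq_zero.1 h1

lemma t1_reg (r : B ⊗[k] X.A1) (h : t1 X B * r = 0) : r = 0 := by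
  apply ι1_injective X B
  have h1 := congrArg (ι1 X B) h
  rw [map_mul, map_zero] at h1
  rw [map_zero]
  exact (isUnit_ι1_t1 X B).mul_right_eq_zero.1 h1

include H in
/-- sections over `U_B` are determined on the intersection -/
lemma rsU_injective (hM : LocFree 𝓜 ⊤) : Function.Injective (rs 𝓜 (leU ch fst)) := by
  rw [injective_iff_map_eq_zero]
  intro m hm
  obtain ⟨n, hn⟩ := pow_smul_eq_zero' (aff0 ch H) (hM.mono le_top) _ (basic0' ch H)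
    (leU ch fst) m hm
  have := invertible (aff0 ch H) (hM.mono le_top : LocFree 𝓜 (fst ⁻¹ᵁ ch.U))
  have hreg : ∀ r : Γ(Y, fst ⁻¹ᵁ ch.U), mu0 ch H (t0 X B) * r = 0 → r = 0 := by
    intro r hr
    obtain ⟨r', rfl⟩ := (mu0_bij ch H).2 r
    rw [← map_mul, ← map_zero (mu0 ch H)] at hr
    rw [t0_reg _ ((mu0_bij ch H).1 hr), map_zero]
  have hregn : ∀ n : ℕ, ∀ r : Γ(Y, fst ⁻¹ᵁ ch.U), mu0 ch H (t0 X B) ^ n * r = 0 → r = 0 := by
    intro n
    induction n with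
    | zero => intro r hr; simpa using hr
    | succ n ih => intro r hr; rw [pow_succ, mul_assoc] at hr; exact hreg _ (ih _ hr)
  exact smul_reg (hregn n) hn

include H in
lemma rsV_injective (hM : LocFree 𝓜 ⊤) : Function.Injective (rs 𝓜 (leV ch fst)) := by
  rw [injective_iff_map_eq_zero]
  intro m hm
  obtain ⟨n, hn⟩ := pow_smul_eq_zero' (aff1 ch H) (hM.mono le_top) _ (basic1' ch H)
    (leV ch fst) m hm
  have := invertible (aff1 ch H) (hM.mono le_top : LocFree 𝓜 (fst ⁻¹ᵁ ch.V))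
  have hreg : ∀ r : Γ(Y, fst ⁻¹ᵁ ch.V), mu1 ch H (t1 X B) * r = 0 → r = 0 := by
    intro r hr
    obtain ⟨r', rfl⟩ := (mu1_bij ch H).2 r
    rw [← map_mul, ← map_zero (mu1 ch H)] at hr
    rw [t1_reg _ ((mu1_bij ch H).1 hr), map_zero]
  have hregn : ∀ n : ℕ, ∀ r : Γ(Y, fst ⁻¹ᵁ ch.V), mu1 ch H (t1 X B) ^ n * r = 0 → r = 0 := by
    intro n
    induction n with
    | zero => intro r hr; simpa using hr
    | succ n ih => intro r hr; rw [pow_succ, mul_assoc] at hr; exact hreg _ (ih _ hr)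
  exact smul_reg (hregn n) hn

variable (𝓜) in
/-- sections over `U_B ∩ V_B` as a module over `B ⊗ A` -/
@[reducible] def modA : Module (B ⊗[k] X.A) Γ(𝓜, fst ⁻¹ᵁ (ch.U ⊓ ch.V)) :=
  Module.compHom _ (muA ch H)

lemma e0 (hM : LocFree 𝓜 ⊤) (m : Γ(𝓜, fst ⁻¹ᵁ (ch.U ⊓ ch.V))) : ∃ n : ℕ,
    muA ch H (ι0 X B (t0 X B) ^ n) • m ∈ (rs 𝓜 (leU ch fst)).range := by
  obtain ⟨n, t, ht⟩ := exists_pow_smul' (aff0 ch H) (hM.mono le_top) _ (basic0' ch H)
    (leU ch fst) m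
  refine ⟨n, t, ?_⟩
  rw [ht, ro_mu0, map_pow]

lemma e1 (hM : LocFree 𝓜 ⊤) (m : Γ(𝓜, fst ⁻¹ᵁ (ch.U ⊓ ch.V))) : ∃ n : ℕ,
    muA ch H (ι1 X B (t1 X B) ^ n) • m ∈ (rs 𝓜 (leV ch fst)).range := by
  obtain ⟨n, t, ht⟩ := exists_pow_smul' (aff1 ch H) (hM.mono le_top) _ (basic1' ch H)
    (leV ch fst) m
  refine ⟨n, t, ?_⟩
  rw [ht, ro_mu1, map_pow]

lemma h0 (s : B ⊗[k] X.A0) (m : Γ(𝓜, fst ⁻¹ᵁ (ch.U ⊓ ch.V)))
    (hm : m ∈ (rs 𝓜 (leU ch fst)).range) :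
    muA ch H (ι0 X B s) • m ∈ (rs 𝓜 (leU ch fst)).range := by
  obtain ⟨t, rfl⟩ := hm
  exact ⟨mu0 ch H s • t, by rw [rs_smul, ro_mu0]⟩

lemma h1 (s : B ⊗[k] X.A1) (m : Γ(𝓜, fst ⁻¹ᵁ (ch.U ⊓ ch.V)))
    (hm : m ∈ (rs 𝓜 (leV ch fst)).range) :
    muA ch H (ι1 X B s) • m ∈ (rs 𝓜 (leV ch fst)).range := by
  obtain ⟨t, rfl⟩ := hm
  exact ⟨mu1 ch H s • t, by rw [rs_smul, ro_mu1]⟩

/-- the line datum of a locally free module of rank one -/
def toLD (𝓜 : Y.Modules) (hM : LocFree 𝓜 ⊤) : PreLD X B :=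
  letI := modA ch H 𝓜
  mkLD X Γ(𝓜, fst ⁻¹ᵁ (ch.U ⊓ ch.V)) (rs 𝓜 (leU ch fst)).range (rs 𝓜 (leV ch fst)).range
    (fun s m hm => h0 ch H s m hm) (fun s m hm => h1 ch H s m hm)
    (fun m => e0 ch H hM m) (fun m => e1 ch H hM m)

/-- the underlying type -/
lemma toLD_M (hM : LocFree 𝓜 ⊤) : (toLD ch H 𝓜 hM).M = Γ(𝓜, fst ⁻¹ᵁ (ch.U ⊓ ch.V)) := rfl

lemma toLD_smulA (hM : LocFree 𝓜 ⊤) (a : X.A) (m : Γ(𝓜, fst ⁻¹ᵁ (ch.U ⊓ ch.V))) :
    (a • (show (toLD ch H 𝓜 hM).M from m)) = (show (toLD ch H 𝓜 hM).M from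
      muA ch H (1 ⊗ₜ a) • m) := rfl

lemma toLD_smulB (hM : LocFree 𝓜 ⊤) (b : B) (m : Γ(𝓜, fst ⁻¹ᵁ (ch.U ⊓ ch.V))) :
    (b • (show (toLD ch H 𝓜 hM).M from m)) = (show (toLD ch H 𝓜 hM).M from
      muA ch H (b ⊗ₜ 1) • m) := rfl

lemma toLD_smul (hM : LocFree 𝓜 ⊤) (s : B ⊗[k] X.A) (m : Γ(𝓜, fst ⁻¹ᵁ (ch.U ⊓ ch.V))) :
    (s • (show (toLD ch H 𝓜 hM).M from m)) = (show (toLD ch H 𝓜 hM).M from
      muA ch H s • m) :=
  letI := modA ch H 𝓜
  mkLD_smul X _ _ _ _ _ _ _ s m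

lemma mem_toLD_M0 (hM : LocFree 𝓜 ⊤) (m : Γ(𝓜, fst ⁻¹ᵁ (ch.U ⊓ ch.V))) :
    (show (toLD ch H 𝓜 hM).M from m) ∈ (toLD ch H 𝓜 hM).M0 ↔
      ∃ t : Γ(𝓜, fst ⁻¹ᵁ ch.U), rs 𝓜 (leU ch fst) t = m := Iff.rfl

lemma mem_toLD_M1 (hM : LocFree 𝓜 ⊤) (m : Γ(𝓜, fst ⁻¹ᵁ (ch.U ⊓ ch.V))) :
    (show (toLD ch H 𝓜 hM).M from m) ∈ (toLD ch H 𝓜 hM).M1 ↔
      ∃ t : Γ(𝓜, fst ⁻¹ᵁ ch.V), rs 𝓜 (leV ch fst) t = m := Iff.rfl

/-- `toLD 𝓜` is a line -/
theorem toLD_isLine (hM : LocFree 𝓜 ⊤) : (toLD ch H 𝓜 hM).IsLine where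
  inv0 := by
    have := invertible (aff0 ch H) (hM.mono le_top : LocFree 𝓜 (fst ⁻¹ᵁ ch.U))
    let _ : Module (B ⊗[k] X.A0) Γ(𝓜, fst ⁻¹ᵁ ch.U) := Module.compHom _ (mu0 ch H)
    have h2 : Module.Invertible (B ⊗[k] X.A0) Γ(𝓜, fst ⁻¹ᵁ ch.U) :=
      invertible_of_ringEquiv (RingEquiv.ofBijective _ (mu0_bij ch H)) fun r n => rfl
    let f : Γ(𝓜, fst ⁻¹ᵁ ch.U) →ₗ[B ⊗[k] X.A0] (toLD ch H 𝓜 hM).M0' :=
      { toFun := fun t => ⟨rs 𝓜 (leU ch fst) t, ⟨t, rfl⟩⟩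
        map_add' := fun a b => Subtype.ext (map_add (rs 𝓜 (leU ch fst)) a b)
        map_smul' := fun r t => by
          apply Subtype.ext
          have e1 : rs 𝓜 (leU ch fst) (mu0 ch H r • t) =
            muA ch H (ι0 X B r) • rs 𝓜 (leU ch fst) t := by rw [rs_smul, ro_mu0]
          exact e1.trans ((toLD_smul ch H hM (ι0 X B r) _).symm.trans
            (ι0_smul (toLD ch H 𝓜 hM) r _)) }
    refine Module.Invertible.congr (LinearEquiv.ofBijective f ⟨?_, ?_⟩)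
    · intro a b hab
      exact rsU_injective ch H hM (congrArg Subtype.val hab)
    · rintro ⟨_, t, rfl⟩
      exact ⟨t, rfl⟩
  inv1 := by
    have := invertible (aff1 ch H) (hM.mono le_top : LocFree 𝓜 (fst ⁻¹ᵁ ch.V))
    let _ : Module (B ⊗[k] X.A1) Γ(𝓜, fst ⁻¹ᵁ ch.V) := Module.compHom _ (mu1 ch H)
    have h2 : Module.Invertible (B ⊗[k] X.A1) Γ(𝓜, fst ⁻¹ᵁ ch.V) :=
      invertible_of_ringEquiv (RingEquiv.ofBijective _ (mu1_bij ch H)) fun r n => rfl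
    let f : Γ(𝓜, fst ⁻¹ᵁ ch.V) →ₗ[B ⊗[k] X.A1] (toLD ch H 𝓜 hM).M1' :=
      { toFun := fun t => ⟨rs 𝓜 (leV ch fst) t, ⟨t, rfl⟩⟩
        map_add' := fun a b => Subtype.ext (map_add (rs 𝓜 (leV ch fst)) a b)
        map_smul' := fun r t => by
          apply Subtype.ext
          have e1 : rs 𝓜 (leV ch fst) (mu1 ch H r • t) =
            muA ch H (ι1 X B r) • rs 𝓜 (leV ch fst) t := by rw [rs_smul, ro_mu1]
          exact e1.trans ((toLD_smul ch H hM (ι1 X B r) _).symm.trans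
            (ι1_smul (toLD ch H 𝓜 hM) r _)) }
    refine Module.Invertible.congr (LinearEquiv.ofBijective f ⟨?_, ?_⟩)
    · intro a b hab
      exact rsV_injective ch H hM (congrArg Subtype.val hab)
    · rintro ⟨_, t, rfl⟩
      exact ⟨t, rfl⟩

end Main

end

end Fermat.Agent.JE
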