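import Fermat.Agent.JE.Loc

set_option autoImplicit false

/-! Sections over an affine open: localization and invertibility (block E1 of S25). -/

universe u

open CategoryTheory CategoryTheory.Limits AlgebraicGeometry TopologicalSpace Opposite
open Fermat.Agent.JPb (Gen)
open scoped TensorProduct

namespace Fermat.Agent.JE

noncomputable section

variable {X : Scheme.{u}} {M : X.Modules}

/-- the `Γ(X,U)`-module structure on `Γ(M,V)` for `V ≤ U` -/
@[reducible] def modRes (M : X.Modules) {U V : X.Opens} (h : V ≤ U) : Module Γ(X, U) Γ(M, V) :=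
  Module.compHom _ (ro h)

instance instModBO {U : X.Opens} (f : Γ(X, U)) : Module Γ(X, U) Γ(M, X.basicOpen f) :=
  modRes M (X.basicOpen_le f)

lemma smul_bo {U : X.Opens} (f : Γ(X, U)) (a : Γ(X, U)) (s : Γ(M, X.basicOpen f)) :
    a • s = ro (X.basicOpen_le f) a • s := rfl

instance instTowBO {U : X.Opens} (f : Γ(X, U)) :
    IsScalarTower Γ(X, U) Γ(X, X.basicOpen f) Γ(M, X.basicOpen f) :=
  ⟨fun a b s => by
    rw [smul_bo, smul_smul]; rfl⟩

/-- restriction to `D(f)` as a linear map -/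
def rsL (M : X.Modules) {U : X.Opens} (f : Γ(X, U)) : Γ(M, U) →ₗ[Γ(X, U)] Γ(M, X.basicOpen f) where
  toFun := rs M (X.basicOpen_le f)
  map_add' := map_add _
  map_smul' a s := rs_smul _ a s

@[simp] lemma rsL_apply {U : X.Opens} (f : Γ(X, U)) (s : Γ(M, U)) :
    rsL M f s = rs M (X.basicOpen_le f) s := rfl

lemma isUnit_ro {U : X.Opens} (f : Γ(X, U)) : IsUnit (ro (X.basicOpen_le f) f) :=
  RingedSpace.isUnit_res_basicOpen _ f

/-- (a) localization -/
theorem isLocalizedModule {U : X.Opens} (hU : IsAffineOpen U) (hM : LocFree M U) (f : Γ(X, U)) :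
    IsLocalizedModule (Submonoid.powers f) (rsL M f) where
  map_units := by
    rintro ⟨_, n, rfl⟩
    rw [Module.End.isUnit_iff]
    have hu : IsUnit (ro (X.basicOpen_le f) (f ^ n)) := by
      rw [map_pow]; exact (isUnit_ro f).pow n
    obtain ⟨v, hv⟩ := hu
    refine ⟨fun a b hab => ?_, fun b => ⟨(↑v⁻¹ : Γ(X, X.basicOpen f)) • b, ?_⟩⟩
    · have h1 : (v : Γ(X, X.basicOpen f)) • a = (v : Γ(X, X.basicOpen f)) • b := by
        rw [hv]; exact hab
      have h2 := congrArg (fun z => (↑v⁻¹ : Γ(X, X.basicOpen f)) • z) h1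
      simpa [smul_smul] using h2
    · have h1 : (v : Γ(X, X.basicOpen f)) • ((↑v⁻¹ : Γ(X, X.basicOpen f)) • b) = b := by
        rw [smul_smul, Units.mul_inv, one_smul]
      rw [hv] at h1
      exact h1
  surj s := by
    obtain ⟨n, t, ht⟩ := exists_pow_smul hU hM f s
    refine ⟨(t, ⟨f ^ n, n, rfl⟩), ?_⟩
    show ro (X.basicOpen_le f) (f ^ n) • s = rs M (X.basicOpen_le f) t
    rw [ht, map_pow]
  exists_of_eq {a b} hab := by
    have h : rs M (X.basicOpen_le f) (a - b) = 0 := by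
      rw [map_sub, sub_eq_zero]; exact hab
    obtain ⟨n, hn⟩ := pow_smul_eq_zero hU hM f _ h
    refine ⟨⟨f ^ n, n, rfl⟩, ?_⟩
    rw [smul_sub, sub_eq_zero] at hn
    exact hn

lemma gen_unit_smul {U : X.Opens} {e : Γ(M, U)} (he : Gen M U e) {a : Γ(X, U)} (ha : IsUnit a) :
    Gen M U (a • e) := by
  intro V hV
  have hu : IsUnit (ro hV a) := ha.map _
  have h1 : (fun b : Γ(X, V) => b • M.presheaf.map (homOfLE hV).op (a • e)) =
      (fun b : Γ(X, V) => b • rs M hV e) ∘ (fun b => b * ro hV a) := by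
    funext b
    show b • rs M hV (a • e) = (b * ro hV a) • rs M hV e
    rw [rs_smul, smul_smul]
  rw [h1]
  refine (gen_iff.1 he V hV).comp ?_
  obtain ⟨v, hv⟩ := hu
  rw [← hv]
  exact v.mulRight_bijective

/-- (b) frames from global sections on `U` -/
theorem exists_gen {U : X.Opens} (hU : IsAffineOpen U) (hM : LocFree M U) {x : X} (hx : x ∈ U) :
    ∃ (f : Γ(X, U)) (s : Γ(M, U)), x ∈ X.basicOpen f ∧ Gen M (X.basicOpen f)
      (rs M (X.basicOpen_le f) s) := by
  obtain ⟨V, hxV, e, he⟩ := hM x hx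
  obtain ⟨f, hfV, hxf⟩ := hU.exists_basicOpen_le (V := V) ⟨x, hxV⟩ hx
  obtain ⟨n, s, hs⟩ := exists_pow_smul hU hM f (rs M hfV e)
  refine ⟨f, s, hxf, ?_⟩
  rw [hs]
  exact gen_unit_smul (gen_rs he hfV) ((isUnit_ro f).pow n)

/-- a finite cover by frames coming from sections over `U` -/
theorem exists_gen_cover {U : X.Opens} (hU : IsAffineOpen U) (hM : LocFree M U) :
    ∃ (n : ℕ) (g : Fin n → Γ(X, U)) (s : Fin n → Γ(M, U)), U ≤ ⨆ i, X.basicOpen (g i) ∧
      Ideal.span (Set.range g) = ⊤ ∧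
      ∀ i, Gen M (X.basicOpen (g i)) (rs M (X.basicOpen_le (g i)) (s i)) := by
  have key : ∀ x : U, ∃ (f : Γ(X, U)) (s : Γ(M, U)), (x : X) ∈ X.basicOpen f ∧
      Gen M (X.basicOpen f) (rs M (X.basicOpen_le f) s) := fun x => exists_gen hU hM x.2
  choose f s hf hs using key
  obtain ⟨t, ht⟩ := hU.isCompact.elim_finite_subcover (fun x : U => (X.basicOpen (f x)).1)
    (fun x => (X.basicOpen (f x)).2) (fun x hx => Set.mem_iUnion.2 ⟨⟨x, hx⟩, hf _⟩)
  obtain ⟨n, ⟨eq⟩⟩ := Finite.exists_equiv_fin t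
  have hcov : U ≤ ⨆ i, X.basicOpen (f (eq.symm i).1) := by
    intro x hx
    obtain ⟨y, hy, hxy⟩ := Set.mem_iUnion₂.1 (ht hx)
    exact Opens.mem_iSup.2 ⟨eq ⟨y, hy⟩, by simpa using hxy⟩
  refine ⟨n, fun i => f (eq.symm i).1, fun i => s (eq.symm i).1, hcov, ?_, fun i => hs _⟩
  rw [← hU.self_le_iSup_basicOpen_iff]
  refine hcov.trans (iSup_le fun i => ?_)
  exact le_iSup (fun g : Set.range (fun i => f (eq.symm i).1) => X.basicOpen g.1) ⟨_, i, rfl⟩

/-- sections over `U` vanishing on a covering family -/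
lemma eq_zero_of_cover {U : X.Opens} {n : ℕ} {g : Fin n → Γ(X, U)}
    (hcov : U ≤ ⨆ i, X.basicOpen (g i)) (s : Γ(M, U))
    (h : ∀ i, rs M (X.basicOpen_le (g i)) s = 0) : s = 0 := by
  refine rs_sep (fun i => X.basicOpen (g i)) U (fun i => X.basicOpen_le (g i)) hcov _ _ ?_
  intro i
  rw [h i, map_zero]

/-- rank one property -/
lemma dual_smul_comm {U : X.Opens} (hU : IsAffineOpen U) (hM : LocFree M U)
    (φ : Γ(M, U) →ₗ[Γ(X, U)] Γ(X, U)) (m n : Γ(M, U)) : φ m • n = φ n • m := by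
  obtain ⟨N, g, s, hcov, -, hs⟩ := exists_gen_cover hU hM
  rw [← sub_eq_zero]
  refine eq_zero_of_cover hcov _ fun i => ?_
  -- write `g^K m = a s_i`, `g^K n = b s_i`
  have key : ∀ m : Γ(M, U), ∃ K, ∀ K', K ≤ K' → ∃ a : Γ(X, U), g i ^ K' • m = a • s i := by
    intro m
    obtain ⟨a, ha⟩ := gen_exists_eq (hs i) le_rfl (rs M (X.basicOpen_le (g i)) m)
    rw [rs_rs] at ha
    obtain ⟨K, y, hy⟩ := exists_eq_pow_mul_of_isAffineOpen X U hU (g i) a
    have hy' : ro (X.basicOpen_le (g i)) y = ro (X.basicOpen_le (g i)) (g i) ^ K * a := hy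
    have h0 : rs M (X.basicOpen_le (g i)) (g i ^ K • m - y • s i) = 0 := by
      rw [map_sub, rs_smul, rs_smul, ha, hy', map_pow, mul_smul, sub_self]
    obtain ⟨K1, hK1⟩ := pow_smul_eq_zero hU hM _ _ h0
    refine ⟨K1 + K, fun K' hK' => ?_⟩
    obtain ⟨d, rfl⟩ := Nat.exists_eq_add_of_le' hK'
    refine ⟨g i ^ (d + K1) * y, ?_⟩
    rw [smul_sub, sub_eq_zero, smul_smul, smul_smul, ← pow_add] at hK1
    rw [← add_assoc, add_assoc, pow_add, mul_smul, hK1, smul_smul, pow_add, mul_assoc]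
  obtain ⟨K1, hK1⟩ := key m
  obtain ⟨K2, hK2⟩ := key n
  obtain ⟨a, ha⟩ := hK1 (K1 + K2) (Nat.le_add_right _ _)
  obtain ⟨b, hb⟩ := hK2 (K1 + K2) (Nat.le_add_left _ _)
  have h1 : (g i ^ (K1 + K2) * g i ^ (K1 + K2)) • (φ m • n - φ n • m) = 0 := by
    have e1 : (g i ^ (K1 + K2) * g i ^ (K1 + K2)) • (φ m • n) =
        φ (g i ^ (K1 + K2) • m) • (g i ^ (K1 + K2) • n) := by
      rw [map_smul, smul_eq_mul, smul_smul, smul_smul]; congr 1; ring
    have e2 : (g i ^ (K1 + K2) * g i ^ (K1 + K2)) • (φ n • m) =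
        φ (g i ^ (K1 + K2) • n) • (g i ^ (K1 + K2) • m) := by
      rw [map_smul, smul_eq_mul, smul_smul, smul_smul]; congr 1; ring
    rw [smul_sub, e1, e2, ha, hb, map_smul, map_smul, smul_eq_mul, smul_eq_mul, smul_smul,
      smul_smul, sub_eq_zero]
    congr 1; ring
  have h2 := congrArg (rs M (X.basicOpen_le (g i))) h1
  rw [rs_smul, map_zero] at h2
  have hu : IsUnit (ro (X.basicOpen_le (g i)) (g i ^ (K1 + K2) * g i ^ (K1 + K2))) := by
    rw [map_mul, map_pow]
    exact ((isUnit_ro (g i)).pow _).mul ((isUnit_ro (g i)).pow _)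
  obtain ⟨v, hv⟩ := hu
  rw [← hv] at h2
  have h3 := congrArg (fun z => (↑v⁻¹ : Γ(X, X.basicOpen (g i))) • z) h2
  simpa [smul_smul] using h3

/-- `Γ(M,U)` is finitely presented -/
theorem finitePresentation {U : X.Opens} (hU : IsAffineOpen U) (hM : LocFree M U) :
    Module.FinitePresentation Γ(X, U) Γ(M, U) := by
  obtain ⟨N, g, s, hcov, hspan, hs⟩ := exists_gen_cover hU hM
  have : ∀ r : Set.range g, IsLocalization.Away r.1 Γ(X, X.basicOpen r.1) := fun r =>
    hU.isLocalization_basicOpen r.1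
  have : ∀ r : Set.range g, IsLocalizedModule (Submonoid.powers r.1) (rsL M r.1) := fun r =>
    isLocalizedModule hU hM r.1
  refine Module.FinitePresentation.of_localizationSpan' (Set.range g) hspan
    (Mₚ := fun r => Γ(M, X.basicOpen r.1)) (Rₚ := fun r => Γ(X, X.basicOpen r.1))
    (fun r => rsL M r.1) ?_
  rintro ⟨_, i, rfl⟩
  have hb := gen_iff.1 (hs i) _ le_rfl
  rw [rs_self] at hb
  let e : Γ(X, X.basicOpen (g i)) ≃ₗ[Γ(X, X.basicOpen (g i))] Γ(M, X.basicOpen (g i)) :=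
    LinearEquiv.ofBijective
      (LinearMap.toSpanSingleton _ _ (rs M (X.basicOpen_le (g i)) (s i))) hb
  exact Module.FinitePresentation.of_equiv e

/-- `Γ(M,U)` is an invertible module -/
theorem invertible {U : X.Opens} (hU : IsAffineOpen U) (hM : LocFree M U) :
    Module.Invertible Γ(X, U) Γ(M, U) := by
  obtain ⟨N, g, s, hcov, hspan, hs⟩ := exists_gen_cover hU hM
  have hfp := finitePresentation hU hM
  -- functionals
  have key : ∀ i, ∃ (φ : Γ(M, U) →ₗ[Γ(X, U)] Γ(X, U)) (n : ℕ), φ (s i) = g i ^ n := by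
    intro i
    have hb := gen_iff.1 (hs i) _ le_rfl
    rw [rs_self] at hb
    let e : Γ(X, X.basicOpen (g i)) ≃ₗ[Γ(X, X.basicOpen (g i))] Γ(M, X.basicOpen (g i)) :=
      LinearEquiv.ofBijective
        (LinearMap.toSpanSingleton _ _ (rs M (X.basicOpen_le (g i)) (s i))) hb
    have := hU.isLocalization_basicOpen (g i)
    let ψ : Γ(M, U) →ₗ[Γ(X, U)] Γ(X, X.basicOpen (g i)) :=
      (e.symm.toLinearMap.restrictScalars Γ(X, U)) ∘ₗ rsL M (g i)
    have hψ : ψ (s i) = 1 := by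
      show e.symm (rs M (X.basicOpen_le (g i)) (s i)) = 1
      rw [LinearEquiv.symm_apply_eq]
      exact (one_smul _ _).symm
    obtain ⟨φ, ⟨_, n, rfl⟩, hφ⟩ := Module.FinitePresentation.exists_lift_of_isLocalizedModule
      (Submonoid.powers (g i)) (Algebra.linearMap Γ(X, U) Γ(X, X.basicOpen (g i))) ψ
    have h1 : algebraMap Γ(X, U) Γ(X, X.basicOpen (g i)) (φ (s i)) =
        algebraMap Γ(X, U) Γ(X, X.basicOpen (g i)) (g i ^ n) := by
      have := congrArg (fun z => z (s i)) hφ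
      have h2 : algebraMap Γ(X, U) Γ(X, X.basicOpen (g i)) (φ (s i)) = (g i ^ n) • ψ (s i) := this
      rw [h2, hψ, Algebra.smul_def, mul_one]
    obtain ⟨⟨_, K, rfl⟩, hK⟩ := (IsLocalization.eq_iff_exists (Submonoid.powers (g i)) _).1 h1
    refine ⟨g i ^ K • φ, K + n, ?_⟩
    rw [LinearMap.smul_apply, smul_eq_mul, pow_add]
    exact hK
  choose φ n hφ using key
  have hspan2 : Ideal.span (Set.range fun i => g i ^ n i) = ⊤ := by
    rw [← Ideal.radical_eq_top, eq_top_iff, ← hspan, Ideal.span_le]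
    rintro _ ⟨i, rfl⟩
    exact ⟨n i, Ideal.subset_span ⟨i, rfl⟩⟩
  obtain ⟨c, hc⟩ := (Ideal.mem_span_range_iff_exists_fun).1
    ((Ideal.eq_top_iff_one _).1 hspan2)
  refine ⟨?_, ?_⟩
  · -- injective
    have hz : ∀ z : Module.Dual Γ(X, U) Γ(M, U) ⊗[Γ(X, U)] Γ(M, U),
        z = contractLeft Γ(X, U) Γ(M, U) z • (∑ i, φ i ⊗ₜ[Γ(X, U)] (c i • s i)) := by
      intro z
      induction z using TensorProduct.induction_on with
      | zero => simp
      | tmul ψ m =>
        rw [contractLeft_apply, Finset.smul_sum]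
        have h1 : ∀ i, ψ m • (φ i ⊗ₜ[Γ(X, U)] (c i • s i)) = (c i * φ i (s i)) • (ψ ⊗ₜ m) := by
          intro i
          have e1 : ψ m • φ i = φ i m • ψ := by
            ext w
            show ψ m * φ i w = φ i m * ψ w
            have a1 := dual_smul_comm hU hM (φ i) w m
            have a2 := congrArg ψ a1
            rw [map_smul, map_smul, smul_eq_mul, smul_eq_mul] at a2
            rw [mul_comm, a2]
          have e2 : φ i m • s i = φ i (s i) • m := dual_smul_comm hU hM (φ i) m (s i)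
          rw [TensorProduct.smul_tmul', e1, TensorProduct.smul_tmul, smul_comm (φ i m), e2,
            smul_smul, TensorProduct.tmul_smul]
        rw [Finset.sum_congr rfl fun i _ => h1 i, ← Finset.sum_smul]
        have h2 : ∑ i, c i * φ i (s i) = 1 := by
          rw [← hc]; exact Finset.sum_congr rfl fun i _ => by rw [hφ i]
        rw [h2, one_smul]
      | add x y hx hy => rw [map_add, add_smul, ← hx, ← hy]
    intro x y hxy
    rw [hz x, hz y, hxy]
  · intro r
    refine ⟨r • ∑ i, φ i ⊗ₜ[Γ(X, U)] (c i • s i), ?_⟩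
    rw [map_smul, map_sum]
    have h2 : ∑ i, contractLeft Γ(X, U) Γ(M, U) (φ i ⊗ₜ[Γ(X, U)] (c i • s i)) = 1 := by
      rw [← hc]
      refine Finset.sum_congr rfl fun i _ => ?_
      rw [contractLeft_apply, map_smul, hφ i, smul_eq_mul]
    rw [h2, smul_eq_mul, mul_one]

lemma ro_sep {ι : Type*} (U : ι → X.Opens) (V : X.Opens) (hUV : ∀ i, U i ≤ V)
    (hcov : V ≤ iSup U) (s t : Γ(X, V)) (h : ∀ i, ro (hUV i) s = ro (hUV i) t) : s = t :=
  TopCat.Sheaf.eq_of_locally_eq' X.sheaf U V (fun i => homOfLE (hUV i)) hcov s t h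

lemma ro_glue {ι : Type*} (U : ι → X.Opens) (V : X.Opens) (hUV : ∀ i, U i ≤ V)
    (hcov : V ≤ iSup U) (s : ∀ i, Γ(X, U i))
    (h : ∀ i j, ro (inf_le_left : U i ⊓ U j ≤ U i) (s i) =
      ro (inf_le_right : U i ⊓ U j ≤ U j) (s j)) :
    ∃ t : Γ(X, V), ∀ i, ro (hUV i) t = s i := by
  obtain ⟨t, ht, -⟩ := TopCat.Sheaf.existsUnique_gluing' X.sheaf U V
    (fun i => homOfLE (hUV i)) hcov s h
  exact ⟨t, ht⟩

/-- (c) a global basis over an affine open is a frame -/
theorem gen_of_bijective {U : X.Opens} (hU : IsAffineOpen U) (hM : LocFree M U) (s : Γ(M, U))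
    (hs : Function.Bijective (fun a : Γ(X, U) => a • s)) : Gen M U s := by
  -- at each point `s` is a frame nearby
  have key : ∀ x : U, ∃ V : X.Opens, (x : X) ∈ V ∧ ∃ h : V ≤ U, Gen M V (rs M h s) := by
    intro x
    obtain ⟨f, t, hxf, ht⟩ := exists_gen hU hM x.2
    obtain ⟨b, hb⟩ := hs.2 t
    have hb' : b • s = t := hb
    obtain ⟨a, ha⟩ := gen_exists_eq ht le_rfl (rs M (X.basicOpen_le f) s)
    rw [rs_rs] at ha
    refine ⟨X.basicOpen f, hxf, X.basicOpen_le f, ?_⟩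
    have h1 : ro (X.basicOpen_le f) b * a = 1 := by
      have h2 : (ro (X.basicOpen_le f) b * a - 1) • rs M (X.basicOpen_le f) t = 0 := by
        rw [sub_smul, one_smul, mul_smul, ← ha, ← rs_smul, hb', sub_self]
      have h3 := gen_eq_zero ht le_rfl (a := ro (X.basicOpen_le f) b * a - 1) (by rwa [rs_self])
      exact sub_eq_zero.1 h3
    have h4 : IsUnit a := IsUnit.of_mul_eq_one _ ((mul_comm _ _).trans h1)
    rw [ha]
    exact gen_unit_smul ht h4
  choose V hxV hVU hV using key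
  intro W hWU
  have hcov : W ≤ ⨆ x : U, V x ⊓ W := by
    intro x hx
    exact Opens.mem_iSup.2 ⟨⟨x, hWU hx⟩, hxV _, hx⟩
  refine ⟨fun a b hab => ?_, fun m => ?_⟩
  · have hab' : a • rs M hWU s = b • rs M hWU s := hab
    refine ro_sep (fun x : U => V x ⊓ W) W (fun x => inf_le_right) hcov _ _ fun x => ?_
    have h1 := congrArg (rs M (inf_le_right : V x ⊓ W ≤ W)) hab'
    rw [rs_smul, rs_smul, rs_rs] at h1
    have h2 := gen_iff.1 (hV x) (V x ⊓ W) inf_le_left
    refine h2.1 ?_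
    simpa using h1
  · have hloc : ∀ x : U, ∃ a : Γ(X, V x ⊓ W), rs M (inf_le_right : V x ⊓ W ≤ W) m =
        a • rs M (inf_le_left.trans (hVU x)) s := by
      intro x
      obtain ⟨a, ha⟩ := gen_exists_eq (hV x) (inf_le_left : V x ⊓ W ≤ V x) (rs M inf_le_right m)
      exact ⟨a, by simpa using ha⟩
    choose a ha using hloc
    obtain ⟨b, hb⟩ := ro_glue (fun x : U => V x ⊓ W) W
      (fun x => inf_le_right) hcov a (by
        intro x y
        have hle : (V x ⊓ W) ⊓ (V y ⊓ W) ≤ V x := inf_le_left.trans inf_le_left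
        refine (gen_iff.1 (hV x) _ hle).1 ?_
        have h1 := congrArg (rs M (inf_le_left : (V x ⊓ W) ⊓ (V y ⊓ W) ≤ _)) (ha x)
        have h2 := congrArg (rs M (inf_le_right : (V x ⊓ W) ⊓ (V y ⊓ W) ≤ _)) (ha y)
        rw [rs_rs, rs_smul, rs_rs] at h1 h2
        show ro _ (a x) • _ = ro _ (a y) • _
        rw [rs_rs, ← h1, ← h2])
    refine ⟨b, ?_⟩
    show b • rs M hWU s = m
    refine rs_sep (fun x : U => V x ⊓ W) W (fun x => inf_le_right) hcov _ _ fun x => ?_
    rw [rs_smul, rs_rs, ha x]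
    congr 1
    exact hb x

end

end Fermat.Agent.JE
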