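import Fermat.Agent.JPb.Main

set_option autoImplicit false

/-! Sections of locally free modules of rank one over affine opens (block E of S25). -/

universe u

open CategoryTheory CategoryTheory.Limits AlgebraicGeometry TopologicalSpace Opposite
open Fermat.Agent.JPb (Gen)

namespace Fermat.Agent.JE

noncomputable section

variable {X : Scheme.{u}}

/-- restriction of functions -/
def ro {U V : X.Opens} (h : V ≤ U) : Γ(X, U) →+* Γ(X, V) := (X.presheaf.map (homOfLE h).op).hom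

/-- restriction of sections -/
def rs (M : X.Modules) {U V : X.Opens} (h : V ≤ U) : Γ(M, U) →+ Γ(M, V) :=
  (M.presheaf.map (homOfLE h).op).hom

variable {M : X.Modules}

@[simp] lemma ro_ro {U V W : X.Opens} (h : V ≤ U) (h' : W ≤ V) (a : Γ(X, U)) :
    ro h' (ro h a) = ro (h'.trans h) a := by
  simp only [ro, ← CommRingCat.comp_apply, ← Functor.map_comp, ← op_comp, homOfLE_comp]

@[simp] lemma rs_rs {U V W : X.Opens} (h : V ≤ U) (h' : W ≤ V) (a : Γ(M, U)) :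
    rs M h' (rs M h a) = rs M (h'.trans h) a := by
  simp only [rs, ← AddCommGrpCat.comp_apply, ← Functor.map_comp, ← op_comp, homOfLE_comp]

@[simp] lemma ro_self {U : X.Opens} (h : U ≤ U) (a : Γ(X, U)) : ro h a = a := by
  simp [ro]

@[simp] lemma rs_self {U : X.Opens} (h : U ≤ U) (a : Γ(M, U)) : rs M h a = a := by
  simp [rs]

@[simp] lemma rs_smul {U V : X.Opens} (h : V ≤ U) (a : Γ(X, U)) (s : Γ(M, U)) :
    rs M h (a • s) = ro h a • rs M h s :=
  M.map_smul (homOfLE h) a s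

lemma rs_sep {ι : Type*} (U : ι → X.Opens) (V : X.Opens) (hUV : ∀ i, U i ≤ V)
    (hcov : V ≤ iSup U) (s t : Γ(M, V)) (h : ∀ i, rs M (hUV i) s = rs M (hUV i) t) : s = t :=
  TopCat.Sheaf.eq_of_locally_eq' ⟨M.presheaf, M.isSheaf⟩ U V (fun i => homOfLE (hUV i)) hcov s t h

lemma rs_glue {ι : Type*} (U : ι → X.Opens) (V : X.Opens) (hUV : ∀ i, U i ≤ V)
    (hcov : V ≤ iSup U) (s : ∀ i, Γ(M, U i))
    (h : ∀ i j, rs M (inf_le_left : U i ⊓ U j ≤ U i) (s i) =
      rs M (inf_le_right : U i ⊓ U j ≤ U j) (s j)) :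
    ∃ t : Γ(M, V), ∀ i, rs M (hUV i) t = s i := by
  obtain ⟨t, ht, -⟩ := TopCat.Sheaf.existsUnique_gluing' ⟨M.presheaf, M.isSheaf⟩ U V
    (fun i => homOfLE (hUV i)) hcov s h
  exact ⟨t, ht⟩

lemma gen_iff {U : X.Opens} {e : Γ(M, U)} : Gen M U e ↔
    ∀ (V : X.Opens) (h : V ≤ U), Function.Bijective (fun a : Γ(X, V) => a • rs M h e) := Iff.rfl

lemma gen_rs {U V : X.Opens} {e : Γ(M, U)} (he : Gen M U e) (h : V ≤ U) :
    Gen M V (rs M h e) := he.res (homOfLE h)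

lemma gen_exists_eq {U : X.Opens} {e : Γ(M, U)} (he : Gen M U e) {V : X.Opens} (h : V ≤ U)
    (s : Γ(M, V)) : ∃ a : Γ(X, V), s = a • rs M h e := by
  obtain ⟨a, ha⟩ := (gen_iff.1 he V h).2 s
  exact ⟨a, ha.symm⟩

lemma gen_eq_zero {U : X.Opens} {e : Γ(M, U)} (he : Gen M U e) {V : X.Opens} (h : V ≤ U)
    {a : Γ(X, V)} (ha : a • rs M h e = 0) : a = 0 := by
  apply (gen_iff.1 he V h).1
  simpa using ha

lemma basicOpen_ro {U V : X.Opens} (h : V ≤ U) (f : Γ(X, U)) :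
    X.basicOpen (ro h f) = V ⊓ X.basicOpen f := X.basicOpen_res f (homOfLE h).op

/-- vanishing on `D(f)` for an open with a frame -/
lemma gen_pow_smul_eq_zero {W : X.Opens} {e : Γ(M, W)} (he : Gen M W e)
    (hW : IsCompact W.1) (f : Γ(X, W)) (t : Γ(M, W))
    (ht : rs M (X.basicOpen_le f) t = 0) : ∃ n : ℕ, f ^ n • t = 0 := by
  obtain ⟨a, rfl⟩ := gen_exists_eq he le_rfl t
  rw [rs_smul, rs_rs] at ht
  have ha := gen_eq_zero he _ ht
  obtain ⟨n, hn⟩ := exists_pow_mul_eq_zero_of_res_basicOpen_eq_zero_of_isCompact X hW a f ha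
  exact ⟨n, by rw [smul_smul, hn, zero_smul]⟩

/-- extension from `D(f)` for an open with a frame -/
lemma gen_exists_pow_smul {W : X.Opens} {e : Γ(M, W)} (he : Gen M W e)
    (hW : IsCompact W.1) (hW' : IsQuasiSeparated W.1) (f : Γ(X, W)) (s : Γ(M, X.basicOpen f)) :
    ∃ (n : ℕ) (t : Γ(M, W)), rs M (X.basicOpen_le f) t = ro (X.basicOpen_le f) f ^ n • s := by
  obtain ⟨b, rfl⟩ := gen_exists_eq he (X.basicOpen_le f) s
  obtain ⟨n, y, hy⟩ := exists_eq_pow_mul_of_isCompact_of_isQuasiSeparated X W hW hW' f b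
  refine ⟨n, y • e, ?_⟩
  rw [rs_smul, smul_smul]
  congr 1

/-- every point of `U` has a neighbourhood with a frame -/
def LocFree (M : X.Modules) (U : X.Opens) : Prop :=
  ∀ x ∈ U, ∃ V : X.Opens, x ∈ V ∧ ∃ e : Γ(M, V), Gen M V e

lemma LocFree.mono {U V : X.Opens} (h : LocFree M U) (hVU : V ≤ U) : LocFree M V :=
  fun x hx => h x (hVU hx)

lemma LocFree.exists_cover {U : X.Opens} (hU : IsAffineOpen U) (hM : LocFree M U) :
    ∃ (n : ℕ) (g : Fin n → Γ(X, U)), U ≤ ⨆ i, X.basicOpen (g i) ∧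
      ∀ i, ∃ e : Γ(M, X.basicOpen (g i)), Gen M _ e := by
  have key : ∀ x : U, ∃ f : Γ(X, U), (x : X) ∈ X.basicOpen f ∧
      ∃ e : Γ(M, X.basicOpen f), Gen M _ e := by
    intro x
    obtain ⟨V, hxV, e, he⟩ := hM x x.2
    obtain ⟨f, hfV, hxf⟩ := hU.exists_basicOpen_le (V := V) ⟨x, hxV⟩ x.2
    exact ⟨f, hxf, _, gen_rs he hfV⟩
  choose f hf hf' using key
  obtain ⟨t, ht⟩ := hU.isCompact.elim_finite_subcover (fun x : U => (X.basicOpen (f x)).1)
    (fun x => (X.basicOpen (f x)).2) (fun x hx => Set.mem_iUnion.2 ⟨⟨x, hx⟩, hf _⟩)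
  obtain ⟨n, ⟨eq⟩⟩ := Finite.exists_equiv_fin t
  refine ⟨n, fun i => f (eq.symm i).1, ?_, fun i => hf' _⟩
  intro x hx
  obtain ⟨y, hy, hxy⟩ := Set.mem_iUnion₂.1 (ht hx)
  exact Opens.mem_iSup.2 ⟨eq ⟨y, hy⟩, by simpa using hxy⟩

/-- Q1, uniqueness -/
theorem pow_smul_eq_zero {U : X.Opens} (hU : IsAffineOpen U) (hM : LocFree M U) (f : Γ(X, U))
    (t : Γ(M, U)) (ht : rs M (X.basicOpen_le f) t = 0) : ∃ n : ℕ, f ^ n • t = 0 := by
  obtain ⟨n, g, hcov, hfr⟩ := hM.exists_cover hU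
  have key : ∀ i, ∃ m : ℕ, ∀ m', m ≤ m' → rs M (X.basicOpen_le (g i)) (f ^ m' • t) = 0 := by
    intro i
    obtain ⟨e, he⟩ := hfr i
    have h1 : rs M (X.basicOpen_le (ro (X.basicOpen_le (g i)) f))
        (rs M (X.basicOpen_le (g i)) t) = 0 := by
      rw [rs_rs]
      have hle : X.basicOpen (ro (X.basicOpen_le (g i)) f) ≤ X.basicOpen f := by
        rw [basicOpen_ro]; exact inf_le_right
      have : rs M hle (rs M (X.basicOpen_le f) t) = 0 := by rw [ht, map_zero]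
      rw [rs_rs] at this
      exact this
    obtain ⟨m, hm⟩ := gen_pow_smul_eq_zero he (hU.basicOpen (g i)).isCompact _ _ h1
    refine ⟨m, fun m' hm' => ?_⟩
    rw [rs_smul, map_pow]
    obtain ⟨d, rfl⟩ := Nat.exists_eq_add_of_le' hm'
    rw [pow_add, mul_smul, hm, smul_zero]
  choose m hm using key
  refine ⟨∑ i, m i, ?_⟩
  refine rs_sep (fun i => X.basicOpen (g i)) U (fun i => X.basicOpen_le (g i)) hcov _ _ ?_
  intro i
  rw [hm i _ (Finset.single_le_sum (fun _ _ => Nat.zero_le _) (Finset.mem_univ i)), map_zero]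

/-- Q1, existence -/
theorem exists_pow_smul {U : X.Opens} (hU : IsAffineOpen U) (hM : LocFree M U) (f : Γ(X, U))
    (s : Γ(M, X.basicOpen f)) :
    ∃ (n : ℕ) (t : Γ(M, U)), rs M (X.basicOpen_le f) t = ro (X.basicOpen_le f) f ^ n • s := by
  obtain ⟨n, g, hcov, hfr⟩ := hM.exists_cover hU
  have hle : ∀ i, X.basicOpen (ro (X.basicOpen_le (g i)) f) ≤ X.basicOpen f := by
    intro i; rw [basicOpen_ro]; exact inf_le_right
  have key : ∀ i, ∃ (m : ℕ), ∀ m', m ≤ m' → ∃ (t : Γ(M, X.basicOpen (g i))),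
      rs M (X.basicOpen_le (ro (X.basicOpen_le (g i)) f)) t =
        ro ((hle i).trans (X.basicOpen_le f)) f ^ m' • rs M (hle i) s := by
    intro i
    obtain ⟨e, he⟩ := hfr i
    obtain ⟨m, t, ht⟩ := gen_exists_pow_smul he (hU.basicOpen (g i)).isCompact
      (hU.basicOpen (g i)).isQuasiSeparated _ (rs M (hle i) s)
    refine ⟨m, fun m' hm' => ?_⟩
    obtain ⟨d, rfl⟩ := Nat.exists_eq_add_of_le' hm'
    refine ⟨ro (X.basicOpen_le (g i)) f ^ d • t, ?_⟩
    rw [rs_smul, ht, smul_smul, map_pow]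
    simp only [ro_ro, ← pow_add]
  choose m hm using key
  obtain ⟨N, hN⟩ : ∃ N, ∀ i, m i ≤ N :=
    ⟨∑ i, m i, fun i => Finset.single_le_sum (fun _ _ => Nat.zero_le _) (Finset.mem_univ i)⟩
  choose t ht using fun i => hm i N (hN i)
  -- make the `t i` compatible
  have key2 : ∀ i j, ∃ k : ℕ, ∀ k', k ≤ k' →
      rs M (inf_le_left : X.basicOpen (g i) ⊓ X.basicOpen (g j) ≤ _)
        (ro (X.basicOpen_le (g i)) f ^ k' • t i) =
      rs M (inf_le_right : X.basicOpen (g i) ⊓ X.basicOpen (g j) ≤ _)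
        (ro (X.basicOpen_le (g j)) f ^ k' • t j) := by
    intro i j
    obtain ⟨e, he⟩ := hfr i
    have hW : IsAffineOpen (X.basicOpen (g i) ⊓ X.basicOpen (g j)) := by
      rw [← basicOpen_ro (X.basicOpen_le (g i)) (g j)]
      exact (hU.basicOpen (g i)).basicOpen _
    have hWU : X.basicOpen (g i) ⊓ X.basicOpen (g j) ≤ U := inf_le_left.trans (X.basicOpen_le _)
    have h0 : rs M (X.basicOpen_le (ro hWU f))
        (rs M inf_le_left (t i) - rs M inf_le_right (t j)) = 0 := by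
      rw [map_sub, rs_rs, rs_rs, sub_eq_zero]
      have hi : X.basicOpen (ro hWU f) ≤ X.basicOpen (ro (X.basicOpen_le (g i)) f) := by
        rw [basicOpen_ro, basicOpen_ro]; exact inf_le_inf inf_le_left le_rfl
      have hj : X.basicOpen (ro hWU f) ≤ X.basicOpen (ro (X.basicOpen_le (g j)) f) := by
        rw [basicOpen_ro, basicOpen_ro]; exact inf_le_inf inf_le_right le_rfl
      have h1 := congrArg (rs M hi) (ht i)
      have h2 := congrArg (rs M hj) (ht j)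
      simp only [rs_rs, rs_smul, map_pow, ro_ro] at h1 h2
      rw [h1, h2]
    obtain ⟨k, hk⟩ := gen_pow_smul_eq_zero (gen_rs he inf_le_left) hW.isCompact _ _ h0
    refine ⟨k, fun k' hk' => ?_⟩
    obtain ⟨d, rfl⟩ := Nat.exists_eq_add_of_le' hk'
    rw [rs_smul, rs_smul, map_pow, map_pow, ro_ro, ro_ro, pow_add, mul_smul, mul_smul,
      ← sub_eq_zero, ← smul_sub, ← smul_sub, hk, smul_zero]
  choose k hk using key2
  obtain ⟨K, hK⟩ : ∃ K, ∀ i j, k i j ≤ K :=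
    ⟨∑ i, ∑ j, k i j, fun i j => (Finset.single_le_sum (f := fun j => k i j)
      (fun _ _ => Nat.zero_le _) (Finset.mem_univ j)).trans
      (Finset.single_le_sum (f := fun i => ∑ j, k i j) (fun _ _ => Nat.zero_le _)
        (Finset.mem_univ i))⟩
  obtain ⟨T, hT⟩ := rs_glue (fun i => X.basicOpen (g i)) U (fun i => X.basicOpen_le (g i)) hcov
    (fun i => ro (X.basicOpen_le (g i)) f ^ K • t i) (fun i j => hk i j K (hK i j))
  refine ⟨K + N, T, ?_⟩
  refine rs_sep (fun i => X.basicOpen (ro (X.basicOpen_le (g i)) f)) _ hle ?_ _ _ ?_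
  · intro x hx
    have hxU := X.basicOpen_le f hx
    obtain ⟨i, hi⟩ := Opens.mem_iSup.1 (hcov hxU)
    refine Opens.mem_iSup.2 ⟨i, ?_⟩
    rw [basicOpen_ro]
    exact ⟨hi, hx⟩
  · intro i
    have h1 := congrArg (rs M (X.basicOpen_le (ro (X.basicOpen_le (g i)) f))) (hT i)
    rw [rs_rs] at h1
    rw [rs_rs, rs_smul, h1, rs_smul, ht i, smul_smul, map_pow, map_pow, ro_ro, ro_ro, pow_add]

end

end Fermat.Agent.JE
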